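import Fermat.Prelude.Def_GaloisRep_StrictOrdinary
import Fermat.Prelude.Def_GaloisRep_LocalConditions
import Mathlib.LinearAlgebra.TensorProduct.Basis

/-!
# (BC-eq) stability of the "equational" local conditions under local base change

For a local ring homomorphism `φ : A → B` and `ρ : GaloisRepAdic A`, the conditions
`DetIsCyclotomic p`, `IsUnramifiedAt q`, `IsUnipotentOnInertiaAt q`, `IsStrictOrdinaryAt p`
pass from `ρ` to `ρ.baseChangeAlong φ hφ`; hence so does `GaloisRep.strictOrdinaryCondition`.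
-/

set_option autoImplicit false
set_option linter.style.haveILetI false

open scoped TensorProduct

namespace Fermat.Agent.TW.BC

open IsLocalRing

/-! ### Lines spanned by a basis vector, after base change -/

section Line

variable {A B V : Type*} [CommRing A] [CommRing B] [Algebra A B] [AddCommGroup V] [Module A V]
  (b : Module.Basis (Fin 2) A V) (f : V →ₗ[A] V)

theorem tmul_mem_span_baseChange (c : B) {v : V} (hv : v ∈ Submodule.span A {b 0}) :
    (c ⊗ₜ[A] v : B ⊗[A] V) ∈ Submodule.span B {(b.baseChange B) 0} := by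
  obtain ⟨a, rfl⟩ := Submodule.mem_span_singleton.mp hv
  rw [Module.Basis.baseChange_apply, Submodule.mem_span_singleton]
  refine ⟨c * algebraMap A B a, ?_⟩
  rw [← TensorProduct.smul_tmul, TensorProduct.smul_tmul', smul_eq_mul, mul_one,
    Algebra.smul_def, mul_comm]

theorem exists_tmul_of_mem_span_baseChange {w : B ⊗[A] V}
    (hw : w ∈ Submodule.span B {(b.baseChange B) 0}) : ∃ c : B, w = c ⊗ₜ[A] b 0 := by
  obtain ⟨c, rfl⟩ := Submodule.mem_span_singleton.mp hw
  refine ⟨c, ?_⟩
  rw [Module.Basis.baseChange_apply, TensorProduct.smul_tmul', smul_eq_mul, mul_one]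

theorem baseChange_mem_span_of_mem (hf : ∀ v ∈ Submodule.span A {b 0}, f v ∈ Submodule.span A {b 0})
    {w : B ⊗[A] V} (hw : w ∈ Submodule.span B {(b.baseChange B) 0}) :
    f.baseChange B w ∈ Submodule.span B {(b.baseChange B) 0} := by
  obtain ⟨c, rfl⟩ := exists_tmul_of_mem_span_baseChange b hw
  rw [LinearMap.baseChange_tmul]
  exact tmul_mem_span_baseChange b c (hf _ (Submodule.mem_span_singleton_self _))

theorem baseChange_sub_smul_mem_span (z : A) (hf : ∀ v, f v - z • v ∈ Submodule.span A {b 0})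
    (w : B ⊗[A] V) :
    f.baseChange B w - algebraMap A B z • w ∈ Submodule.span B {(b.baseChange B) 0} := by
  induction w using TensorProduct.induction_on with
  | zero => simp only [map_zero, smul_zero, sub_zero, Submodule.zero_mem]
  | tmul c v =>
    have e : algebraMap A B z • (c ⊗ₜ[A] v : B ⊗[A] V) = c ⊗ₜ[A] (z • v) := by
      rw [TensorProduct.smul_tmul', smul_eq_mul, ← TensorProduct.smul_tmul, Algebra.smul_def]
    rw [LinearMap.baseChange_tmul, e, ← TensorProduct.tmul_sub]
    exact tmul_mem_span_baseChange b c (hf v)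
  | add x y hx hy =>
    rw [map_add, smul_add, add_sub_add_comm]
    exact Submodule.add_mem _ hx hy

theorem baseChange_sub_mem_span (hf : ∀ v, f v - v ∈ Submodule.span A {b 0}) (w : B ⊗[A] V) :
    f.baseChange B w - w ∈ Submodule.span B {(b.baseChange B) 0} := by
  have := baseChange_sub_smul_mem_span (B := B) b f 1 (fun v => by simpa using hf v) w
  simpa using this

theorem baseChange_eq_smul_of_mem_span (x : A) (hf : ∀ v ∈ Submodule.span A {b 0}, f v = x • v)
    {w : B ⊗[A] V} (hw : w ∈ Submodule.span B {(b.baseChange B) 0}) :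
    f.baseChange B w = algebraMap A B x • w := by
  obtain ⟨c, rfl⟩ := exists_tmul_of_mem_span_baseChange b hw
  rw [LinearMap.baseChange_tmul, hf _ (Submodule.mem_span_singleton_self _),
    TensorProduct.smul_tmul', smul_eq_mul, ← TensorProduct.smul_tmul, Algebra.smul_def]

end Line

/-! ### The conditions -/

variable {A B : Type} [CommRing A] [IsLocalRing A] [CommRing B] [IsLocalRing B]
  (φ : A →+* B) (hφ : IsLocalHom φ) (ρ : GaloisRepAdic A)

include hφ in
theorem natCast_mem_maximalIdeal_map {p : ℕ} (h : (p : A) ∈ maximalIdeal A) :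
    (p : B) ∈ maximalIdeal B := by
  have := hφ.map_nonunit (p : A)
  rw [map_natCast] at this
  exact fun hu => h (this hu)

theorem detIsCyclotomic_baseChangeAlong {p : ℕ} (h : ρ.DetIsCyclotomic p) :
    (ρ.baseChangeAlong φ hφ).DetIsCyclotomic p := by
  letI : Algebra A B := φ.toAlgebra
  refine ⟨natCast_mem_maximalIdeal_map φ hφ h.1, fun n σ a hσ => ?_⟩
  have h1 := h.2 n σ a hσ
  have hdet : LinearMap.det ((ρ.baseChangeAlong φ hφ).ρ σ) = φ (LinearMap.det (ρ.ρ σ)) :=
    LinearMap.det_baseChange (A := B) (ρ.ρ σ)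
  rw [hdet]
  have h2 := Ideal.mem_map_of_mem φ h1
  rw [Ideal.map_span, Set.image_singleton, map_sub, map_natCast, map_natCast] at h2
  exact h2

theorem isUnramifiedAt_baseChangeAlong {q : ℕ} (h : ρ.IsUnramifiedAt q) :
    (ρ.baseChangeAlong φ hφ).IsUnramifiedAt q := by
  letI : Algebra A B := φ.toAlgebra
  intro P hP σ hσ
  have h1 := h P hP σ hσ
  change (ρ.ρ σ).baseChange B = 1
  rw [h1, LinearMap.baseChange_one]

theorem isUnipotentOnInertiaAt_baseChangeAlong {q : ℕ} (h : ρ.IsUnipotentOnInertiaAt q) :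
    (ρ.baseChangeAlong φ hφ).IsUnipotentOnInertiaAt q := by
  letI : Algebra A B := φ.toAlgebra
  intro P hP σ hσ
  have h1 := h P hP σ hσ
  change ((ρ.ρ σ).baseChange B).charpoly = _
  rw [LinearMap.charpoly_baseChange, h1]
  simp

theorem isStrictOrdinaryAt_baseChangeAlong {p : ℕ} (h : ρ.IsStrictOrdinaryAt p) :
    (ρ.baseChangeAlong φ hφ).IsStrictOrdinaryAt p := by
  letI : Algebra A B := φ.toAlgebra
  refine ⟨natCast_mem_maximalIdeal_map φ hφ h.1, fun P hP => ?_⟩
  obtain ⟨L, ⟨b, rfl⟩, hD, hI, hS⟩ := h.2 P hP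
  refine ⟨(Submodule.span B {(b.baseChange B) 0} : Submodule B (B ⊗[A] ρ.V)),
    ⟨b.baseChange B, rfl⟩, ?_, ?_, ?_⟩
  · intro σ hσ w hw
    exact baseChange_mem_span_of_mem (B := B) b (ρ.ρ σ) (hD σ hσ) hw
  · intro σ hσ w
    exact baseChange_sub_mem_span (B := B) b (ρ.ρ σ) (hI σ hσ) w
  · intro σ hσ
    obtain ⟨x, z, hx, hz, hcyc⟩ := hS σ hσ
    refine ⟨φ x, φ z, ?_, ?_, ?_⟩
    · intro w hw
      exact baseChange_eq_smul_of_mem_span (B := B) b (ρ.ρ σ) x hx hw
    · intro w
      exact baseChange_sub_smul_mem_span (B := B) b (ρ.ρ σ) z hz w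
    · intro n a hμ
      have h2 := Ideal.mem_map_of_mem φ (hcyc n a hμ)
      rw [Ideal.map_span, Set.image_singleton, map_sub, map_mul, map_natCast, map_natCast] at h2
      exact h2

/-- `strictOrdinaryCondition` is stable under local base change. -/
theorem strictOrdinaryCondition_baseChangeAlong {𝒪 : Type} [CommRing 𝒪] [Algebra 𝒪 A]
    [Algebra 𝒪 B] {p : ℕ} {S : Finset ℕ} (h : GaloisRep.strictOrdinaryCondition 𝒪 p S ρ) :
    GaloisRep.strictOrdinaryCondition 𝒪 p S (ρ.baseChangeAlong φ hφ) :=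
  ⟨detIsCyclotomic_baseChangeAlong φ hφ ρ h.1, isStrictOrdinaryAt_baseChangeAlong φ hφ ρ h.2.1,
    fun q hq hqS => isUnramifiedAt_baseChangeAlong φ hφ ρ (h.2.2 q hq hqS)⟩

end Fermat.Agent.TW.BC
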