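import Mathlib.LinearAlgebra.TensorProduct.Basis
import Mathlib.RingTheory.Ideal.Operations
import Mathlib.RingTheory.Ideal.Maps
import Mathlib.LinearAlgebra.Quotient.Basic

/-!
# (BC-quot) `V/IV ≅ (B ⊗ V)/I'(B ⊗ V)` for a surjective base change

`A → B` surjective, `V` a free `A`-module with a basis, `I'` an ideal of `B`, `I = I'.comap`.
Then `v ↦ 1 ⊗ v` induces an additive bijection `V/IV ≃ (B ⊗[A] V)/I'(B ⊗[A] V)` commuting with
every `f` resp. `f.baseChange B`.  Mathlib only.
-/

set_option autoImplicit false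

open scoped TensorProduct

namespace Fermat.Agent.TW.BC

section Basis

variable {R M ι : Type*} [CommRing R] [AddCommGroup M] [Module R M]

/-- Membership in `I • ⊤` is coordinate-wise membership in `I`. -/
theorem mem_smul_top_iff_repr_mem (b : Module.Basis ι R M) (I : Ideal R) (x : M) :
    x ∈ I • (⊤ : Submodule R M) ↔ ∀ i, b.repr x i ∈ I := by
  rw [← b.span_eq, Submodule.mem_ideal_smul_span_iff_exists_sum]
  constructor
  · rintro ⟨a, ha, rfl⟩ i
    have : b.repr (a.sum fun i c => c • b i) = a := by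
      rw [← Finsupp.linearCombination_apply, b.repr_linearCombination]
    rw [this]
    exact ha i
  · intro h
    exact ⟨b.repr x, h, by rw [← Finsupp.linearCombination_apply, b.linearCombination_repr]⟩

end Basis

section Quot

variable {A B V ι : Type*} [CommRing A] [CommRing B] [Algebra A B] [AddCommGroup V] [Module A V]
  (b : Module.Basis ι A V) (I' : Ideal B)

include b in
/-- `v ↦ 1 ⊗ v` detects membership in `I • ⊤`, `I = I'.comap`. -/
theorem one_tmul_mem_smul_top_iff (v : V) :
    ((1 : B) ⊗ₜ[A] v : B ⊗[A] V) ∈ I' • (⊤ : Submodule B (B ⊗[A] V)) ↔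
      v ∈ (Ideal.comap (algebraMap A B) I') • (⊤ : Submodule A V) := by
  rw [mem_smul_top_iff_repr_mem (b.baseChange B), mem_smul_top_iff_repr_mem b]
  refine forall_congr' fun i => ?_
  rw [Module.Basis.baseChange_repr_tmul, Ideal.mem_comap, Algebra.smul_def, mul_one]

theorem exists_one_tmul_eq (hsurj : Function.Surjective (algebraMap A B)) (w : B ⊗[A] V) :
    ∃ v : V, ((1 : B) ⊗ₜ[A] v : B ⊗[A] V) = w := by
  induction w using TensorProduct.induction_on with
  | zero => exact ⟨0, TensorProduct.tmul_zero _ _⟩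
  | tmul c v =>
    obtain ⟨a, rfl⟩ := hsurj c
    refine ⟨a • v, ?_⟩
    rw [TensorProduct.tmul_smul, TensorProduct.smul_tmul', Algebra.smul_def, mul_one]
  | add x y hx hy =>
    obtain ⟨v, rfl⟩ := hx
    obtain ⟨v', rfl⟩ := hy
    exact ⟨v + v', TensorProduct.tmul_add _ _ _⟩

/-- The `A`-linear map `V → (B ⊗ V)/I'(B ⊗ V)`, `v ↦ [1 ⊗ v]`. -/
noncomputable def toQuotBaseChange :
    V →ₗ[A] (B ⊗[A] V) ⧸ (I' • (⊤ : Submodule B (B ⊗[A] V))) :=
  ((I' • (⊤ : Submodule B (B ⊗[A] V))).mkQ.restrictScalars A).comp (TensorProduct.mk A B V 1)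

theorem toQuotBaseChange_apply (v : V) :
    toQuotBaseChange (A := A) (V := V) I' v =
      Submodule.Quotient.mk ((1 : B) ⊗ₜ[A] v) := rfl

include b in
theorem ker_toQuotBaseChange :
    LinearMap.ker (toQuotBaseChange (A := A) (V := V) I') =
      (Ideal.comap (algebraMap A B) I') • (⊤ : Submodule A V) := by
  ext v
  rw [LinearMap.mem_ker, toQuotBaseChange_apply, Submodule.Quotient.mk_eq_zero,
    one_tmul_mem_smul_top_iff b]

/-- The induced map on quotients. -/
noncomputable def quotBaseChangeHom :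
    (V ⧸ ((Ideal.comap (algebraMap A B) I') • (⊤ : Submodule A V))) →ₗ[A]
      (B ⊗[A] V) ⧸ (I' • (⊤ : Submodule B (B ⊗[A] V))) :=
  Submodule.liftQ _ (toQuotBaseChange (A := A) (V := V) I') (by
    intro v hv
    rw [LinearMap.mem_ker, toQuotBaseChange_apply, Submodule.Quotient.mk_eq_zero]
    -- direct: generators `a • v` with `a ∈ comap`
    refine Submodule.smul_induction_on hv ?_ ?_
    · intro a ha v _
      rw [TensorProduct.tmul_smul, TensorProduct.smul_tmul', Algebra.smul_def, mul_one]
      have : ((algebraMap A B a) ⊗ₜ[A] v : B ⊗[A] V) = algebraMap A B a • ((1 : B) ⊗ₜ[A] v) := by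
        rw [TensorProduct.smul_tmul', smul_eq_mul, mul_one]
      rw [this]
      exact Submodule.smul_mem_smul (Ideal.mem_comap.mp ha) Submodule.mem_top
    · intro x y hx hy
      rw [TensorProduct.tmul_add]
      exact Submodule.add_mem _ hx hy)

theorem quotBaseChangeHom_mk (v : V) :
    quotBaseChangeHom (A := A) (V := V) I' (Submodule.Quotient.mk v) =
      Submodule.Quotient.mk ((1 : B) ⊗ₜ[A] v) := rfl

include b in
theorem quotBaseChangeHom_injective :
    Function.Injective (quotBaseChangeHom (A := A) (V := V) I') := by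
  rw [← LinearMap.ker_eq_bot, quotBaseChangeHom, Submodule.ker_liftQ_eq_bot']
  exact (ker_toQuotBaseChange b I').symm

theorem quotBaseChangeHom_surjective (hsurj : Function.Surjective (algebraMap A B)) :
    Function.Surjective (quotBaseChangeHom (A := A) (V := V) I') := by
  intro x
  obtain ⟨w, rfl⟩ := Submodule.Quotient.mk_surjective _ x
  obtain ⟨v, rfl⟩ := exists_one_tmul_eq hsurj w
  exact ⟨Submodule.Quotient.mk v, quotBaseChangeHom_mk I' v⟩

/-- Compatibility with endomorphisms. -/
theorem quotBaseChangeHom_mapQ (f : V →ₗ[A] V)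
    (h : (Ideal.comap (algebraMap A B) I') • (⊤ : Submodule A V) ≤
      ((Ideal.comap (algebraMap A B) I') • (⊤ : Submodule A V)).comap f)
    (h' : I' • (⊤ : Submodule B (B ⊗[A] V)) ≤
      (I' • (⊤ : Submodule B (B ⊗[A] V))).comap (f.baseChange B))
    (x : V ⧸ ((Ideal.comap (algebraMap A B) I') • (⊤ : Submodule A V))) :
    quotBaseChangeHom (A := A) (V := V) I' (Submodule.mapQ _ _ f h x) =
      Submodule.mapQ _ _ (f.baseChange B) h' (quotBaseChangeHom (A := A) (V := V) I' x) := by
  obtain ⟨v, rfl⟩ := Submodule.Quotient.mk_surjective _ x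
  rw [Submodule.mapQ_apply, quotBaseChangeHom_mk, quotBaseChangeHom_mk, Submodule.mapQ_apply,
    LinearMap.baseChange_tmul]

end Quot

end Fermat.Agent.TW.BC
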