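import Fermat.Prelude.Def_GaloisRep_Flat
import Fermat.Agent.TW.BC.QuotBaseChange
import Fermat.Agent.TW.BC.Equational

/-!
# (BC-flat) `IsFlatAt` is stable under surjective local base change

For `φ : A → B` local and surjective, every finite-level quotient `V'/I'V'` of
`ρ.baseChangeAlong φ hφ` is (equivariantly) the finite-level quotient `V/φ⁻¹(I')V` of `ρ`, so the
Hopf algebra witnessing flatness of `ρ` at that level witnesses flatness of the base change.
-/

set_option autoImplicit false
set_option linter.style.haveILetI false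

open scoped TensorProduct

namespace Fermat.Agent.TW.BC

open IsLocalRing

variable {A B : Type} [CommRing A] [IsLocalRing A] [CommRing B] [IsLocalRing B]
  (φ : A →+* B) (hφ : IsLocalHom φ) (ρ : GaloisRepAdic A)

include hφ in
theorem finite_residueField_of_surjective (hsurj : Function.Surjective φ)
    [Finite (ResidueField A)] : Finite (ResidueField B) := by
  haveI := hφ
  refine Finite.of_surjective (ResidueField.map φ) ?_
  intro y
  obtain ⟨c, rfl⟩ := residue_surjective y
  obtain ⟨a, rfl⟩ := hsurj c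
  exact ⟨residue A a, ResidueField.map_residue φ a⟩

theorem isFlatAt_baseChangeAlong_of_surjective (hsurj : Function.Surjective φ) {p : ℕ}
    (h : ρ.IsFlatAt p) : (ρ.baseChangeAlong φ hφ).IsFlatAt p := by
  letI : Algebra A B := φ.toAlgebra
  obtain ⟨hfin, hH⟩ := h
  refine ⟨finite_residueField_of_surjective φ hφ hsurj, fun I' hI' => ?_⟩
  have hfinI : Finite (A ⧸ Ideal.comap (algebraMap A B) I') :=
    Finite.of_injective (Ideal.quotientMap I' (algebraMap A B) le_rfl)
      (Ideal.quotientMap_injective)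
  obtain ⟨H, i1, i2, hf1, hf2, hf3, e, he1, he2⟩ := hH _ hfinI
  let b := Module.Free.chooseBasis A ρ.V
  let ι : (ρ.V ⧸ (Ideal.comap (algebraMap A B) I') • (⊤ : Submodule A ρ.V)) ≃ₗ[A]
      (B ⊗[A] ρ.V) ⧸ (I' • (⊤ : Submodule B (B ⊗[A] ρ.V))) :=
    LinearEquiv.ofBijective (quotBaseChangeHom (A := A) (V := ρ.V) I')
      ⟨quotBaseChangeHom_injective b I', quotBaseChangeHom_surjective I' hsurj⟩
  refine ⟨H, i1, i2, hf1, hf2, hf3, e.trans ι.toEquiv, ?_, ?_⟩
  · intro f g
    change ι (e (f * g)) = ι (e f) + ι (e g)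
    rw [he1, map_add]
  · intro σ f g hfg
    change ι (e g) = _
    rw [he2 σ f g hfg]
    exact quotBaseChangeHom_mapQ I' (ρ.ρ σ) _ _ (e f)

/-- `flatCondition` is stable under surjective local base change. -/
theorem flatCondition_baseChangeAlong_of_surjective {𝒪 : Type} [CommRing 𝒪] [Algebra 𝒪 A]
    [Algebra 𝒪 B] (hsurj : Function.Surjective φ) {p : ℕ} {S : Finset ℕ}
    (h : GaloisRep.flatCondition 𝒪 p S ρ) :
    GaloisRep.flatCondition 𝒪 p S (ρ.baseChangeAlong φ hφ) :=
  ⟨detIsCyclotomic_baseChangeAlong φ hφ ρ h.1,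
    isFlatAt_baseChangeAlong_of_surjective φ hφ ρ hsurj h.2.1,
    fun q hq hqS => isUnramifiedAt_baseChangeAlong φ hφ ρ (h.2.2 q hq hqS)⟩

end Fermat.Agent.TW.BC
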