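import Fermat.Agent.TW.Tan.Glue
import Fermat.Agent.TW.BC.FlatSurj

/-!
# (TAN) for the two deformation conditions of S56

`tanOut_condQ_strictOrdinary` and `tanOut_condQ_flat`: for the literal conditions of S56
(`Contracts.condQ` with base condition `strictOrdinaryCondition` resp. `flatCondition`), a bound
`TangentCardLe … r` on the tangent classes gives a surjection `𝒪⟦X₁,…,X_r⟧ ↠ DQ.R`.
The flat case uses base-change stability only along surjections and needs `2 < #k`
(`two_lt_card_residueField`: true for `p ≠ 2`, `p ∈ 𝔪_𝒪`).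
-/

set_option autoImplicit false
set_option linter.style.haveILetI false

namespace Fermat.Agent.TW.BC

open IsLocalRing Fermat.Agent.TW.Contracts Fermat.Agent.TW.Tan

section Card

variable {𝒪 : Type} [CommRing 𝒪] [IsLocalRing 𝒪] [Finite (ResidueField 𝒪)]

/-- For an odd prime `p ∈ 𝔪_𝒪` the residue field has more than two elements. -/
theorem two_lt_card_residueField {p : ℕ} (hp : p.Prime) (hp2 : p ≠ 2)
    (hp𝒪 : (p : 𝒪) ∈ maximalIdeal 𝒪) : 2 < Nat.card (ResidueField 𝒪) := by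
  have h0 : ((p : ℕ) : ResidueField 𝒪) = 0 := by
    rw [← map_natCast (residue 𝒪), residue_eq_zero_iff]
    exact hp𝒪
  have hdvd : ringChar (ResidueField 𝒪) ∣ p := ringChar.dvd h0
  have hchar : ringChar (ResidueField 𝒪) = p :=
    ((Nat.dvd_prime hp).mp hdvd).resolve_left (CharP.ringChar_ne_one)
  haveI : CharP (ResidueField 𝒪) p := hchar ▸ ringChar.charP _
  haveI := Fintype.ofFinite (ResidueField 𝒪)
  obtain ⟨n, -, hn⟩ := FiniteField.card (ResidueField 𝒪) p
  rw [Nat.card_eq_fintype_card, hn]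
  have hp3 : 3 ≤ p := by
    have := hp.two_le
    omega
  calc 2 < p := by omega
    _ = p ^ 1 := (pow_one p).symm
    _ ≤ p ^ (n : ℕ) := Nat.pow_le_pow_right hp.pos n.pos

end Card

section Cond

variable {𝒪 : Type} [CommRing 𝒪] [IsDomain 𝒪] [IsDiscreteValuationRing 𝒪]
  [IsAdicComplete (maximalIdeal 𝒪) 𝒪] [Finite (ResidueField 𝒪)]
  {ρbar : ResidualGaloisRep (ResidueField 𝒪)}

/-- **(TAN)** for the strict-ordinary condition of S56. -/
theorem tanOut_condQ_strictOrdinary (p : ℕ) (Smin Q : Finset ℕ) (r : ℕ)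
    (hcard : TangentCardLe 𝒪 ρbar
      (condQ (fun p T => GaloisRep.strictOrdinaryCondition 𝒪 p T) p Smin Q) r)
    (DQ : GaloisRep.DeformationRingData 𝒪 ρbar
      (condQ (fun p T => GaloisRep.strictOrdinaryCondition 𝒪 p T) p Smin Q)) :
    ∃ γ : MvPowerSeries (Fin r) 𝒪 →ₐ[𝒪] DQ.R, Function.Surjective γ := by
  refine tanOut_of_baseChange r hcard DQ fun φ hφ _ => ?_
  obtain ⟨h1, h2⟩ := DQ.isOfType
  letI := dualNumberAlgebra 𝒪
  exact ⟨strictOrdinaryCondition_baseChangeAlong φ hφ DQ.ρ h1,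
    fun q hq hqp hqne => isUnipotentOnInertiaAt_baseChangeAlong φ hφ DQ.ρ (h2 q hq hqp hqne)⟩

/-- **(TAN)** for the flat condition of S56. -/
theorem tanOut_condQ_flat (p : ℕ) (Smin Q : Finset ℕ) (r : ℕ)
    (h3 : 2 < Nat.card (ResidueField 𝒪))
    (hcard : TangentCardLe 𝒪 ρbar
      (condQ (fun p T => GaloisRep.flatCondition 𝒪 p T) p Smin Q) r)
    (DQ : GaloisRep.DeformationRingData 𝒪 ρbar
      (condQ (fun p T => GaloisRep.flatCondition 𝒪 p T) p Smin Q)) :
    ∃ γ : MvPowerSeries (Fin r) 𝒪 →ₐ[𝒪] DQ.R, Function.Surjective γ := by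
  refine tanOut_of_baseChange_surjective r hcard DQ h3 fun φ hφ _ hsurj => ?_
  obtain ⟨h1, h2⟩ := DQ.isOfType
  letI := dualNumberAlgebra 𝒪
  exact ⟨flatCondition_baseChangeAlong_of_surjective φ hφ DQ.ρ hsurj h1,
    fun q hq hqp hqne => isUnipotentOnInertiaAt_baseChangeAlong φ hφ DQ.ρ (h2 q hq hqp hqne)⟩

end Cond

end Fermat.Agent.TW.BC
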